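/-
S25 / block ABEL, sub-block AB-ALG (skeleton of helper747), helper927.

**AA2** `abelDatum_isBC` : exact statement of `H747/Skel/AbAlgSkel.lean`, no extra hypotheses;
`stmtAA2 : H747.StmtAA2 k B₀ B₁ B₀₁` (the input of `H747.algAbel_of_leaves`).
Inputs: AA1 `H747.tupCartier`, C5 `H147.ptI₀_map`/`ptI₁_map`, and G3/G4/G6 of this directory.
-/
import Fermat.Agent.S25.H747.AlgAbelTop
import Fermat.Agent.S25.H747.AbCartier
import Fermat.Agent.S25.H147.GraphIdealPt
import Fermat.Agent.S25.H927.AbAlgBC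

set_option autoImplicit false
universe u
open scoped TensorProduct

namespace Fermat.Agent.S25.H927

open Fermat.Agent.S25 Fermat.Agent.S25.H747

variable {k : Type u} [Field k] [IsAlgClosed k]
  {B₀ B₁ B₀₁ : Type u} [CommRing B₀] [CommRing B₁] [CommRing B₀₁]
  [Algebra k B₀] [Algebra k B₁] [Algebra k B₀₁] [Algebra B₀ B₀₁] [Algebra B₁ B₀₁]
  [IsScalarTower k B₀ B₀₁] [IsScalarTower k B₁ B₀₁]
  {x : B₀} {y : B₁} {e : B₁ →ₐ[k] k}

/-- **AA2.** Compatibility of the algebraic Abel datum with base change.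
(Exact statement of `H747.Skel.abelDatum_isBC`.) -/
theorem abelDatum_isBC (hC : IsCurveChart k B₀ B₁ B₀₁ x y e) (g : ℕ)
    (A A' : Type u) [CommRing A] [Algebra k A] [CommRing A'] [Algebra k A']
    (ψ : A →ₐ[k] A') (P : Fin g → H746.ChartPt k B₀ B₁ A) :
    CurveGD.IsBC ψ (abelDatum (B₀₁ := B₀₁) e g A P)
      (abelDatum (B₀₁ := B₀₁) e g A' (fun i => (P i).map ψ)) :=
  abelDatum_isBC_of e (fun A _ _ _ P => H747.tupCartier hC A P)
    (fun ψ P => H147.ptI₀_map hC ψ P) (fun ψ P => H147.ptI₁_map hC ψ P) g A A' ψ P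

/-- Leaf AA2 in the form consumed by `H747.algAbel_of_leaves`. -/
theorem stmtAA2 : H747.StmtAA2 k B₀ B₁ B₀₁ :=
  fun _ _ _ hC g A A' _ _ _ _ ψ P => abelDatum_isBC hC g A A' ψ P

end Fermat.Agent.S25.H927
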