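import Fermat.Agent.S25.Defs

/-!
# S25, assembly block AS2, part 1: a representing object is separated (from `Stmt.Val`)

`isSeparated_of_val : Stmt.Val c ε → (D represents, locally of finite type) → IsSeparated D.toBase`.
-/

set_option autoImplicit false
universe u
open CategoryTheory CategoryTheory.Limits AlgebraicGeometry AlgebraicGeometry.RelPicard
  NeronModelInfra GoodReductionJacobian

namespace Fermat.Agent.S25.H927

noncomputable section

variable {k : Type u} [Field k] {C : Scheme.{u}} {c : C ⟶ Spec (CommRingCat.of k)}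
  {ε : SchemeHomOver (𝟙 (Spec (CommRingCat.of k))) c}

/-- Pulling back twice is pulling back along the composite (on the level of line bundles). -/
def pullbackAlongCompIso {X X' T' : Scheme.{u}} {x : X ⟶ Spec (CommRingCat.of k)}
    {x' : X' ⟶ Spec (CommRingCat.of k)} {t' : T' ⟶ Spec (CommRingCat.of k)}
    (M : RigidifiedLineBundle c ε x') (φ : SchemeHomOver x x') (ψ : SchemeHomOver t' x) :
    ((M.pullbackAlong φ).pullbackAlong ψ).L ≅ (M.pullbackAlong (postComp φ ψ)).L :=
  (Scheme.Modules.pullbackComp _ _).app M.L ≪≫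
    (Scheme.Modules.pullbackCongr (baseChangeSnd_comp c φ ψ)).app M.L

/-- Pulling back along equal morphisms. -/
theorem rIso_pullbackAlong_of_eq {T T' : Scheme.{u}} {t : T ⟶ Spec (CommRingCat.of k)}
    {t' : T' ⟶ Spec (CommRingCat.of k)} (M : RigidifiedLineBundle c ε t)
    {φ ψ : SchemeHomOver t' t} (h : φ = ψ) : RIso (M.pullbackAlong φ) (M.pullbackAlong ψ) := by
  subst h
  exact ⟨Iso.refl _⟩

theorem rIso_symm {T : Scheme.{u}} {t : T ⟶ Spec (CommRingCat.of k)}
    {M M' : RigidifiedLineBundle c ε t} (h : RIso M M') : RIso M' M :=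
  ⟨h.some.symm⟩

theorem rIso_trans {T : Scheme.{u}} {t : T ⟶ Spec (CommRingCat.of k)}
    {M M' M'' : RigidifiedLineBundle c ε t} (h : RIso M M') (h' : RIso M' M'') : RIso M M'' :=
  ⟨h.some ≪≫ h'.some⟩

theorem rIso_pullbackAlong {T T' : Scheme.{u}} {t : T ⟶ Spec (CommRingCat.of k)}
    {t' : T' ⟶ Spec (CommRingCat.of k)} {M M' : RigidifiedLineBundle c ε t}
    (h : RIso M M') (ψ : SchemeHomOver t' t) : RIso (M.pullbackAlong ψ) (M'.pullbackAlong ψ) :=
  RigidifiedLineBundle.pullbackAlong_congr ψ h

theorem rIso_pullbackAlong_comp {X X' T' : Scheme.{u}} {x : X ⟶ Spec (CommRingCat.of k)}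
    {x' : X' ⟶ Spec (CommRingCat.of k)} {t' : T' ⟶ Spec (CommRingCat.of k)}
    (M : RigidifiedLineBundle c ε x') (φ : SchemeHomOver x x') (ψ : SchemeHomOver t' x) :
    RIso ((M.pullbackAlong φ).pullbackAlong ψ) (M.pullbackAlong (postComp φ ψ)) :=
  ⟨pullbackAlongCompIso M φ ψ⟩

/-- A locally of finite type `k`-scheme is quasi-separated over `k`. -/
theorem quasiSeparated_of_locallyOfFiniteType {J : Scheme.{u}}
    (f : J ⟶ Spec (CommRingCat.of k)) [LocallyOfFiniteType f] : QuasiSeparated f := by
  have : IsLocallyNoetherian J := LocallyOfFiniteType.isLocallyNoetherian f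
  infer_instance

/-- Every morphism `Spec R ⟶ Spec k` is `specStr` for a suitable algebra structure. -/
theorem exists_algebra_specStr (R : Type u) [CommRing R]
    (i : Spec (CommRingCat.of R) ⟶ Spec (CommRingCat.of k)) :
    ∃ inst : Algebra k R, @specStr k _ R _ inst = i := by
  obtain ⟨φ, rfl⟩ := Spec.map_surjective i
  exact ⟨φ.hom.toAlgebra, rfl⟩

/-- **AS2, part 1.** A representing object which is locally of finite type is separated,
by the valuative criterion and `Stmt.Val`. -/
theorem isSeparated_of_val (hVal : Stmt.Val c ε) (D : RelativePic0Designation k c)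
    (h : RepresentsRelSubPic c ε (algEquivZeroCut c ε) D)
    (hlft : LocallyOfFiniteType D.toBase) : IsSeparated D.toBase := by
  have : QuasiSeparated D.toBase := quasiSeparated_of_locallyOfFiniteType D.toBase
  apply IsSeparated.of_valuativeCriterion
  intro S
  refine ⟨fun l l' => ?_⟩
  obtain ⟨instR, hR⟩ := exists_algebra_specStr (k := k) S.R S.i₂
  let _ : Algebra k S.K := ((algebraMap S.R S.K).comp (algebraMap k S.R)).toAlgebra
  have : IsScalarTower k S.R S.K := IsScalarTower.of_algebraMap_eq fun _ => rfl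
  -- the two lifts as morphisms over `Spec k`
  let g : SchemeHomOver (specStr k S.R) D.toBase := ⟨l.l, by rw [hR]; exact l.fac_right⟩
  let g' : SchemeHomOver (specStr k S.R) D.toBase := ⟨l'.l, by rw [hR]; exact l'.fac_right⟩
  let ψ := specHomOver k (IsScalarTower.toAlgHom k S.R S.K)
  have hψ : ψ.1 = Spec.map (CommRingCat.ofHom (algebraMap S.R S.K)) := rfl
  have hgg' : postComp g ψ = postComp g' ψ := by
    apply Subtype.ext
    change ψ.1 ≫ l.l = ψ.1 ≫ l'.l
    rw [hψ, l.fac_left, l'.fac_left]
  have hM : FibrewiseAlgEquivZero (h.poincare.pullbackAlong g) :=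
    (algEquivZeroCut c ε).pullback_mem _ _ g _ h.poincare_mem
  have hM' : FibrewiseAlgEquivZero (h.poincare.pullbackAlong g') :=
    (algEquivZeroCut c ε).pullback_mem _ _ g' _ h.poincare_mem
  have hK : RIso ((h.poincare.pullbackAlong g).pullbackAlong ψ)
      ((h.poincare.pullbackAlong g').pullbackAlong ψ) :=
    rIso_trans (rIso_pullbackAlong_comp _ g ψ)
      (rIso_trans (rIso_pullbackAlong_of_eq _ hgg') (rIso_symm (rIso_pullbackAlong_comp _ g' ψ)))
  have hiso : RIso (h.poincare.pullbackAlong g) (h.poincare.pullbackAlong g') :=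
    hVal S.R S.K _ _ hM hM' hK
  have heq : g = g' := h.ext_of_iso _ g g' hiso
  have hl : l.l = l'.l := congrArg Subtype.val heq
  cases l
  cases l'
  simp only at hl
  subst hl
  rfl

end

end Fermat.Agent.S25.H927
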