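import Fermat.Agent.S25.Defs
import Fermat.Agent.S25.H927.Sep

/-!
# S25, assembly block AS2: `Val → Abel → ProperOfRep`

* `surjective_of_abel_family`: the classifying map `X ⟶ J` of an Abel family is surjective;
* `properOfRep_of_val_abel : Stmt.Val c ε → Stmt.Abel c ε → Stmt.ProperOfRep c ε`.
-/

set_option autoImplicit false
universe u
open CategoryTheory CategoryTheory.Limits AlgebraicGeometry AlgebraicGeometry.RelPicard
  NeronModelInfra GoodReductionJacobian

namespace Fermat.Agent.S25.H927

noncomputable section

variable {k : Type u} [Field k] {C : Scheme.{u}} {c : C ⟶ Spec (CommRingCat.of k)}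
  {ε : SchemeHomOver (𝟙 (Spec (CommRingCat.of k))) c}

/-- The geometric point over `j : J` with values in the algebraic closure of `κ(j)`. -/
def geomPoint (J : Scheme.{u}) (j : J) :
    Spec (CommRingCat.of (AlgebraicClosure (J.residueField j))) ⟶ J :=
  Spec.map (CommRingCat.ofHom (algebraMap (J.residueField j)
    (AlgebraicClosure (J.residueField j)))) ≫ J.fromSpecResidueField j

theorem geomPoint_apply (J : Scheme.{u}) (j : J)
    (s : Spec (CommRingCat.of (AlgebraicClosure (J.residueField j)))) :
    geomPoint J j s = j := by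
  rw [geomPoint, Scheme.Hom.comp_apply, Scheme.fromSpecResidueField_apply]

/-- The classifying map of a family through which every geometric point of the functor factors
is surjective. -/
theorem surjective_of_family {D : RelativePic0Designation k c}
    (h : RepresentsRelSubPic c ε (algEquivZeroCut c ε) D)
    {X : Scheme.{u}} {x : X ⟶ Spec (CommRingCat.of k)} (M : RigidifiedLineBundle c ε x)
    (hall : ∀ (K : Type u) [Field K] [IsAlgClosed K] [Algebra k K]
      (L : RigidifiedLineBundle c ε (specStr k K)), FibrewiseAlgEquivZero L →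
        ∃ p : SchemeHomOver (specStr k K) x, RIso (M.pullbackAlong p) L)
    (α : SchemeHomOver x D.toBase) (hα : RIso (h.poincare.pullbackAlong α) M) :
    Surjective α.1 := by
  refine ⟨fun j => ?_⟩
  obtain ⟨instK, hK⟩ := exists_algebra_specStr (k := k) (AlgebraicClosure (D.P.residueField j))
    (geomPoint D.P j ≫ D.toBase)
  let s : SchemeHomOver (specStr k (AlgebraicClosure (D.P.residueField j))) D.toBase :=
    ⟨geomPoint D.P j, hK.symm⟩
  have hL : FibrewiseAlgEquivZero (h.poincare.pullbackAlong s) :=
    (algEquivZeroCut c ε).pullback_mem _ _ s _ h.poincare_mem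
  obtain ⟨p, hp⟩ := hall (AlgebraicClosure (D.P.residueField j)) _ hL
  have hiso : RIso (h.poincare.pullbackAlong (postComp α p)) (h.poincare.pullbackAlong s) :=
    rIso_trans (rIso_symm (rIso_pullbackAlong_comp _ α p))
      (rIso_trans (rIso_pullbackAlong hα p) hp)
  have heq : postComp α p = s := h.ext_of_iso _ _ _ hiso
  have h1 : p.1 ≫ α.1 = geomPoint D.P j := congrArg Subtype.val heq
  obtain ⟨pt⟩ : Nonempty (Spec (CommRingCat.of (AlgebraicClosure (D.P.residueField j)))) :=
    inferInstance
  refine ⟨p.1 pt, ?_⟩
  rw [← Scheme.Hom.comp_apply, h1, geomPoint_apply]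

/-- **AS2.** `Val → Abel → ProperOfRep`. -/
theorem properOfRep_of_val_abel (hVal : Stmt.Val c ε) (hAbel : Stmt.Abel c ε) :
    Stmt.ProperOfRep c ε := by
  intro D ⟨h⟩ hlft
  obtain ⟨X, x, hx, -, M, hM, hall⟩ := hAbel
  have hsep : IsSeparated D.toBase := isSeparated_of_val hVal D h hlft
  let α := h.classify x M hM
  have hα : RIso (h.poincare.pullbackAlong α) M := h.classify_spec x M hM
  have hsurj : Surjective α.1 := surjective_of_family h M hall α hα
  have huc : UniversallyClosed (α.1 ≫ D.toBase) := by
    rw [α.2]
    infer_instance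
  have : UniversallyClosed D.toBase := UniversallyClosed.of_comp_surjective α.1 D.toBase
  exact { }

end

end Fermat.Agent.S25.H927
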