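import Fermat.Agent.S25.Defs
import Fermat.Agent.S25.H927.Proper

/-!
# S25, assembly block AS3: `Abel → GeomConnOfRep`

`geomConnOfRep_of_abel : Stmt.Abel c ε → Stmt.GeomConnOfRep c ε`.
-/

set_option autoImplicit false
universe u
open CategoryTheory CategoryTheory.Limits AlgebraicGeometry AlgebraicGeometry.RelPicard
  NeronModelInfra GoodReductionJacobian

namespace Fermat.Agent.S25.H927

noncomputable section

variable {k : Type u} [Field k] {C : Scheme.{u}} {c : C ⟶ Spec (CommRingCat.of k)}
  {ε : SchemeHomOver (𝟙 (Spec (CommRingCat.of k))) c}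

/-- The target of a surjective morphism from a geometrically integral scheme is geometrically
connected. -/
theorem geometricallyConnected_of_surjective {X J S : Scheme.{u}} (a : X ⟶ J) (f : J ⟶ S)
    [Surjective a] [GeometricallyIntegral (a ≫ f)] : GeometricallyConnected f := by
  refine ⟨geometrically_iff_of_isClosedUnderIsomorphisms.mpr fun K _ y => ?_⟩
  -- `X ×_S Spec K` is integral, hence connected
  have hint : IsIntegral (pullback (a ≫ f) y) :=
    pullback_of_geometrically (GeometricallyIntegral.geometrically_isIntegral (f := a ≫ f)) K y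
  have hconn : ConnectedSpace (pullback (a ≫ f) y : Scheme.{u}) := inferInstance
  -- `X ×_J (J ×_S Spec K) ≅ X ×_S Spec K`
  let e := pullbackRightPullbackFstIso f y a
  have hconn' : ConnectedSpace (pullback a (pullback.fst f y) : Scheme.{u}) :=
    e.hom.homeomorph.connectedSpace_iff.mpr hconn
  -- the projection to `J ×_S Spec K` is surjective
  have hsurj : Surjective (pullback.snd a (pullback.fst f y)) := inferInstance
  exact (pullback.snd a (pullback.fst f y)).surjective.connectedSpace
    (pullback.snd a (pullback.fst f y)).continuous

/-- **AS3.** `Abel → GeomConnOfRep`. -/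
theorem geomConnOfRep_of_abel (hAbel : Stmt.Abel c ε) : Stmt.GeomConnOfRep c ε := by
  intro D ⟨h⟩ _
  obtain ⟨X, x, -, hgi, M, hM, hall⟩ := hAbel
  let α := h.classify x M hM
  have hα : RIso (h.poincare.pullbackAlong α) M := h.classify_spec x M hM
  have hsurj : Surjective α.1 := surjective_of_family h M hall α hα
  have hgi' : GeometricallyIntegral (α.1 ≫ D.toBase) := by
    rw [α.2]
    exact hgi
  exact geometricallyConnected_of_surjective α.1 D.toBase

end

end Fermat.Agent.S25.H927
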