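/-
S25 / block ABEL, sub-block AB-ALG (skeleton of helper747), base-change chain, helper927.

* **G6 (strong form)** `isSemilinearBaseChange_idealMapSL` : for invertible ideals `I ⊆ R`,
  `I' ⊆ R'` with `I.map ρ = I'` the restriction `I → I'` of `ρ` is a semilinear base change
  (a surjection onto an invertible module from an invertible module is bijective).
  In particular products of ideals need no separate treatment.
* **G4** `ofIdeals_isBC` : exact statement of `H747/Skel/AbAlgSkel.lean`;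
  `ofIdeals_isBC_of_map` : the same without the three base-change hypotheses.
-/
import Fermat.Agent.S25.H747.GDHom
import Fermat.Agent.S25.H371.SemilinearBC

set_option autoImplicit false
set_option linter.style.haveILetI false
universe u
open scoped TensorProduct

namespace Fermat.Agent.S25.H927

open Fermat.Agent.S25

noncomputable section

section G6

variable {R R' : Type u} [CommRing R] [CommRing R']

/-- **G6 (strong form).** For invertible ideals `I`, `I'` with `I.map ρ = I'`, the restriction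
`I → I'` of `ρ` is a semilinear base change. -/
theorem isSemilinearBaseChange_idealMapSL (ρ : R →+* R') (I : Ideal R) (I' : Ideal R')
    (e : I.map ρ = I') (hI : Module.Invertible R I) (hI' : Module.Invertible R' I') :
    IsSemilinearBaseChange ρ (H747.idealMapₛₗ ρ I I' e.le) := by
  letI : Algebra R R' := ρ.toAlgebra
  letI : Module R I' := Module.compHom I' ρ
  haveI : IsScalarTower R R' I' := ⟨fun r r' n => by
    change (ρ r * r') • n = ρ r • (r' • n); rw [mul_smul]⟩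
  -- the underlying linear map
  let f : I →ₗ[R] I' :=
    { toFun := fun n => H747.idealMapₛₗ ρ I I' e.le n
      map_add' := fun m n => (H747.idealMapₛₗ ρ I I' e.le).map_add m n
      map_smul' := fun r n => LinearMap.map_smulₛₗ (H747.idealMapₛₗ ρ I I' e.le) r n }
  have hf : ∀ a : I, ((f a : I') : R') = ρ a := fun _ => rfl
  let L : R' ⊗[R] I →ₗ[R'] I' := LinearMap.liftBaseChange R' f
  have hL : ∀ (s : R') (a : I), L (s ⊗ₜ[R] a) = s • f a := fun s a => by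
    simp [L]
  have hsurj : Function.Surjective L := by
    rintro ⟨x, hx⟩
    have hx' : x ∈ Ideal.span (ρ '' (I : Set R)) := by
      rw [← Ideal.map, e]; exact hx
    suffices h : ∀ (x : R') (_ : x ∈ Ideal.span (ρ '' (I : Set R))),
        ∃ z : R' ⊗[R] I, ((L z : I') : R') = x by
      obtain ⟨z, hz⟩ := h x hx'
      exact ⟨z, Subtype.ext hz⟩
    intro x hx
    induction hx using Submodule.span_induction with
    | mem x hx =>
      obtain ⟨a, ha, rfl⟩ := hx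
      exact ⟨1 ⊗ₜ[R] ⟨a, ha⟩, by rw [hL, one_smul, hf]⟩
    | zero => exact ⟨0, by simp⟩
    | add x y _ _ hx hy =>
      obtain ⟨z, hz⟩ := hx
      obtain ⟨w, hw⟩ := hy
      exact ⟨z + w, by rw [map_add, Submodule.coe_add, hz, hw]⟩
    | smul r x _ hx =>
      obtain ⟨z, hz⟩ := hx
      exact ⟨r • z, by rw [map_smul, Submodule.coe_smul, hz]⟩
  haveI : Module.Invertible R I := hI
  haveI : Module.Invertible R' I' := hI'
  have hbij : Function.Bijective L := Module.Invertible.bijective_of_surjective hsurj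
  have key : IsBaseChange R' f :=
    IsBaseChange.of_equiv (LinearEquiv.ofBijective L hbij) (fun a => by
      rw [LinearEquiv.ofBijective_apply, hL, one_smul])
  exact key

end G6

section G4

variable {A R₀ R₁ R₀₁ : Type u} [CommRing A] [CommRing R₀] [CommRing R₁]
    [CommRing R₀₁] [Algebra A R₀] [Algebra A R₁] [Algebra A R₀₁] [Algebra R₀ R₀₁]
    [Algebra R₁ R₀₁] [IsScalarTower A R₀ R₀₁] [IsScalarTower A R₁ R₀₁]
    {A' R₀' R₁' R₀₁' : Type u} [CommRing A'] [CommRing R₀'] [CommRing R₁']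
    [CommRing R₀₁'] [Algebra A' R₀'] [Algebra A' R₁'] [Algebra A' R₀₁'] [Algebra R₀' R₀₁']
    [Algebra R₁' R₀₁'] [IsScalarTower A' R₀' R₀₁'] [IsScalarTower A' R₁' R₀₁']

/-- **G4.** Base change of the gluing datum of a Cartier triple.
(Exact statement of `H747.Skel.ofIdeals_isBC`.) -/
theorem ofIdeals_isBC (ρ₀ : R₀ →+* R₀') (ρ₁ : R₁ →+* R₁') (ρ₀₁ : R₀₁ →+* R₀₁')
    (h₀ : ρ₀₁.comp (algebraMap R₀ R₀₁) = (algebraMap R₀' R₀₁').comp ρ₀)
    (h₁ : ρ₀₁.comp (algebraMap R₁ R₀₁) = (algebraMap R₁' R₀₁').comp ρ₁)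
    {I₀ : Ideal R₀} {I₁ : Ideal R₁} {I₀₁ : Ideal R₀₁} (hD : H747.IsCartierTriple I₀ I₁ I₀₁)
    {I₀' : Ideal R₀'} {I₁' : Ideal R₁'} {I₀₁' : Ideal R₀₁'}
    (hD' : H747.IsCartierTriple I₀' I₁' I₀₁')
    (e₀ : I₀.map ρ₀ = I₀') (e₁ : I₁.map ρ₁ = I₁') (e₀₁ : I₀₁.map ρ₀₁ = I₀₁')
    (b₀ : IsSemilinearBaseChange ρ₀ (H747.idealMapₛₗ ρ₀ I₀ I₀' e₀.le))
    (b₁ : IsSemilinearBaseChange ρ₁ (H747.idealMapₛₗ ρ₁ I₁ I₁' e₁.le))
    (b₀₁ : IsSemilinearBaseChange ρ₀₁ (H747.idealMapₛₗ ρ₀₁ I₀₁ I₀₁' e₀₁.le)) :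
    GlueDatum.IsBC ρ₀ ρ₁ ρ₀₁ (H747.ofIdeals A hD) (H747.ofIdeals A' hD') :=
  ⟨{ b₀ := H747.idealMapₛₗ ρ₀ I₀ I₀' e₀.le
     b₁ := H747.idealMapₛₗ ρ₁ I₁ I₁' e₁.le
     b₀₁ := H747.idealMapₛₗ ρ₀₁ I₀₁ I₀₁' e₀₁.le
     comm₀ := fun (s : I₀) => Subtype.ext (RingHom.congr_fun h₀ (s : R₀))
     comm₁ := fun (s : I₁) => Subtype.ext (RingHom.congr_fun h₁ (s : R₁))
     isBaseChange₀ := b₀
     isBaseChange₁ := b₁
     isBaseChange₀₁ := b₀₁ }⟩

/-- The ideal on the intersection of a Cartier triple is invertible. -/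
theorem IsCartierTriple_inv₀₁ {I₀ : Ideal R₀} {I₁ : Ideal R₁} {I₀₁ : Ideal R₀₁}
    (hD : H747.IsCartierTriple I₀ I₁ I₀₁) : Module.Invertible R₀₁ I₀₁ :=
  haveI := hD.inv₀
  Module.Invertible.congr hD.bc₀.equiv

/-- **G4 + G6.** Base change of the gluing datum of a Cartier triple: it suffices that the
ideals of the target are the extensions of the ideals of the source. -/
theorem ofIdeals_isBC_of_map (ρ₀ : R₀ →+* R₀') (ρ₁ : R₁ →+* R₁') (ρ₀₁ : R₀₁ →+* R₀₁')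
    (h₀ : ρ₀₁.comp (algebraMap R₀ R₀₁) = (algebraMap R₀' R₀₁').comp ρ₀)
    (h₁ : ρ₀₁.comp (algebraMap R₁ R₀₁) = (algebraMap R₁' R₀₁').comp ρ₁)
    {I₀ : Ideal R₀} {I₁ : Ideal R₁} {I₀₁ : Ideal R₀₁} (hD : H747.IsCartierTriple I₀ I₁ I₀₁)
    {I₀' : Ideal R₀'} {I₁' : Ideal R₁'} {I₀₁' : Ideal R₀₁'}
    (hD' : H747.IsCartierTriple I₀' I₁' I₀₁')
    (e₀ : I₀.map ρ₀ = I₀') (e₁ : I₁.map ρ₁ = I₁') :
    GlueDatum.IsBC ρ₀ ρ₁ ρ₀₁ (H747.ofIdeals A hD) (H747.ofIdeals A' hD') := by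
  have e₀₁ : I₀₁.map ρ₀₁ = I₀₁' := by
    rw [← hD.map₀, Ideal.map_map, h₀, ← Ideal.map_map, e₀, hD'.map₀]
  exact ofIdeals_isBC ρ₀ ρ₁ ρ₀₁ h₀ h₁ hD hD' e₀ e₁ e₀₁
    (isSemilinearBaseChange_idealMapSL ρ₀ I₀ I₀' e₀ hD.inv₀ hD'.inv₀)
    (isSemilinearBaseChange_idealMapSL ρ₁ I₁ I₁' e₁ hD.inv₁ hD'.inv₁)
    (isSemilinearBaseChange_idealMapSL ρ₀₁ I₀₁ I₀₁' e₀₁ (IsCartierTriple_inv₀₁ hD)
      (IsCartierTriple_inv₀₁ hD'))

end G4

end

end Fermat.Agent.S25.H927
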