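/-
S25 / block ABEL, sub-block AB-ALG (skeleton of helper747), base-change chain, helper927.

**AA2** `abelDatum_isBC_of` : the algebraic Abel datum commutes with base change, with the
leaves AA1 (`tupCartier`) and C5 (`ptI₀_map`, `ptI₁_map`) as explicit hypotheses, in the exact
form of `H747/Skel/AbAlgSkel.lean` (for a fixed curve chart).  Uses G3 (`homDatum_isBC`),
G4 + G6 (`ofIdeals_isBC_of_map`) of this directory.
-/
import Fermat.Agent.S25.H747.AbAlgDefs
import Fermat.Agent.S25.H927.AbAlgHom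
import Fermat.Agent.S25.H927.AbAlgIdeal

set_option autoImplicit false
set_option linter.style.haveILetI false
universe u
open scoped TensorProduct

namespace Fermat.Agent.S25.H927

open Fermat.Agent.S25 Fermat.Agent.S25.H747

noncomputable section

variable {k : Type u} [Field k]
  {B₀ B₁ B₀₁ : Type u} [CommRing B₀] [CommRing B₁] [CommRing B₀₁]
  [Algebra k B₀] [Algebra k B₁] [Algebra k B₀₁] [Algebra B₀ B₀₁] [Algebra B₁ B₀₁]
  [IsScalarTower k B₀ B₀₁] [IsScalarTower k B₁ B₀₁]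

/-- The square of ring maps `A ⊗ B → A ⊗ B'`, `A ⊗ B → A' ⊗ B` commutes. -/
theorem tensorMapLeft_comp_algebraMap {A A' : Type u} [CommRing A] [Algebra k A] [CommRing A']
    [Algebra k A'] (ψ : A →ₐ[k] A') (B B' : Type u) [CommRing B] [CommRing B'] [Algebra k B]
    [Algebra k B'] [Algebra B B'] [IsScalarTower k B B'] :
    (tensorMapLeft k ψ B').comp (algebraMap (A ⊗[k] B) (A ⊗[k] B')) =
      (algebraMap (A' ⊗[k] B) (A' ⊗[k] B')).comp (tensorMapLeft k ψ B) := by
  have h : ((Algebra.TensorProduct.map ψ (AlgHom.id k B')).comp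
      ((tensorMapRight k A B B').restrictScalars k)) =
      ((tensorMapRight k A' B B').restrictScalars k).comp
        (Algebra.TensorProduct.map ψ (AlgHom.id k B)) := by
    ext a
    · simp [tensorMapRight]
    · simp [tensorMapRight]
  exact congrArg (fun φ : A ⊗[k] B →ₐ[k] A' ⊗[k] B' => (φ : A ⊗[k] B →+* A' ⊗[k] B')) h

/-- `Ideal.map` commutes with finite products. -/
theorem ideal_map_finset_prod {R S : Type*} [CommRing R] [CommRing S] (f : R →+* S)
    {ι : Type*} (s : Finset ι) (I : ι → Ideal R) :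
    (∏ i ∈ s, I i).map f = ∏ i ∈ s, (I i).map f :=
  map_prod (Ideal.mapHom f) I s

/-- Base change of the marked chart point. -/
theorem epsPt_map (e : B₁ →ₐ[k] k) {A A' : Type u} [CommRing A] [Algebra k A] [CommRing A']
    [Algebra k A'] (ψ : A →ₐ[k] A') :
    (epsPt B₀ e A).map ψ = epsPt B₀ e A' := by
  simp only [epsPt, H746.ChartPt.map, Sum.map_inr]
  congr 1
  ext b
  simp [Algebra.ofId_apply]

/-- **AA2** (assembly).  Compatibility of the algebraic Abel datum with base change, from the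
leaves AA1 and C5. -/
theorem abelDatum_isBC_of (e : B₁ →ₐ[k] k)
    (hAA1 : ∀ (A : Type u) [CommRing A] [Algebra k A] {g : ℕ}
      (P : Fin g → H746.ChartPt k B₀ B₁ A), TupCartier (B₀₁ := B₀₁) P)
    (hC5₀ : ∀ {A A' : Type u} [CommRing A] [Algebra k A] [CommRing A'] [Algebra k A']
      (ψ : A →ₐ[k] A') (P : H746.ChartPt k B₀ B₁ A),
      (ptI₀ B₀₁ P).map (tensorMapLeft k ψ B₀) = ptI₀ B₀₁ (P.map ψ))
    (hC5₁ : ∀ {A A' : Type u} [CommRing A] [Algebra k A] [CommRing A'] [Algebra k A']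
      (ψ : A →ₐ[k] A') (P : H746.ChartPt k B₀ B₁ A),
      (ptI₁ B₀₁ P).map (tensorMapLeft k ψ B₁) = ptI₁ B₀₁ (P.map ψ))
    (g : ℕ) (A A' : Type u) [CommRing A] [Algebra k A] [CommRing A'] [Algebra k A']
    (ψ : A →ₐ[k] A') (P : Fin g → H746.ChartPt k B₀ B₁ A) :
    CurveGD.IsBC ψ (abelDatum (B₀₁ := B₀₁) e g A P)
      (abelDatum (B₀₁ := B₀₁) e g A' (fun i => (P i).map ψ)) := by
  have hP := hAA1 A P
  have hE := hAA1 A (fun _ : Fin g => epsPt B₀ e A)
  have hP' := hAA1 A' (fun i => (P i).map ψ)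
  have hE' := hAA1 A' (fun _ : Fin g => epsPt B₀ e A')
  rw [abelDatum_eq e g A P hP hE, abelDatum_eq e g A' _ hP' hE']
  have h₀ := tensorMapLeft_comp_algebraMap ψ B₀ B₀₁
  have h₁ := tensorMapLeft_comp_algebraMap ψ B₁ B₀₁
  refine homDatum_isBC _ _ _ h₀ h₁ ?_ ?_
  · refine ofIdeals_isBC_of_map _ _ _ h₀ h₁ hP hP' ?_ ?_
    · simp only [tupI₀, ideal_map_finset_prod, hC5₀]
    · simp only [tupI₁, ideal_map_finset_prod, hC5₁]
  · refine ofIdeals_isBC_of_map _ _ _ h₀ h₁ hE hE' ?_ ?_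
    · simp only [tupI₀, ideal_map_finset_prod, hC5₀, epsPt_map]
    · simp only [tupI₁, ideal_map_finset_prod, hC5₁, epsPt_map]

end

end Fermat.Agent.S25.H927
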