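/-
S25 / block ABEL, sub-block AB-ALG (skeleton of helper747), base-change chain, helper927.

* `semilinear_ext`, `semilinear_induction` : extensionality / induction for a semilinear
  base change (frozen `IsSemilinearBaseChange`).
* `homMapSL hb c` : the `ρ`-semilinear map `Hom_R(N, M) → Hom_R'(N', M')` induced by
  semilinear base changes `b : N → N'`, `c : M → M'`; it is a semilinear base change when `N`
  is finitely generated projective (`isSemilinearBaseChange_homMapSL`).
* **G3** `homDatum_isBC` : exact statement of `H747/Skel/AbAlgSkel.lean`.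
-/
import Fermat.Agent.S25.H747.GDHom
import Fermat.Agent.S25.H371.SemilinearBC

set_option autoImplicit false
set_option linter.style.haveILetI false
universe u
open scoped TensorProduct

namespace Fermat.Agent.S25.H927

open Fermat.Agent.S25

noncomputable section

section SemilinearHom

variable {R R' : Type u} [CommRing R] [CommRing R'] {ρ : R →+* R'}
  {N N' M M' : Type u} [AddCommGroup N] [Module R N] [AddCommGroup N'] [Module R' N']
  [AddCommGroup M] [Module R M] [AddCommGroup M'] [Module R' M']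

/-- Induction principle for the target of a semilinear base change. -/
theorem semilinear_induction {b : N →ₛₗ[ρ] N'} (hb : IsSemilinearBaseChange ρ b)
    (motive : N' → Prop) (zero : motive 0) (base : ∀ n, motive (b n))
    (smul : ∀ (r : R') (n : N'), motive n → motive (r • n))
    (add : ∀ n₁ n₂, motive n₁ → motive n₂ → motive (n₁ + n₂)) (x : N') : motive x := by
  letI : Algebra R R' := ρ.toAlgebra
  letI : Module R N' := Module.compHom N' ρ
  haveI : IsScalarTower R R' N' := ⟨fun r r' n => by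
    change (ρ r * r') • n = ρ r • (r' • n); rw [mul_smul]⟩
  have hb' : IsBaseChange R' (show N →ₗ[R] N' from
    { toFun := fun n => b n
      map_add' := fun m n => b.map_add m n
      map_smul' := fun r n => LinearMap.map_smulₛₗ b r n }) := hb
  exact hb'.inductionOn x motive zero base smul add

/-- Linear maps out of the target of a semilinear base change are determined by their values
on the image. -/
theorem semilinear_ext {b : N →ₛₗ[ρ] N'} (hb : IsSemilinearBaseChange ρ b)
    {X : Type*} [AddCommGroup X] [Module R' X] (f g : N' →ₗ[R'] X)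
    (h : ∀ n, f (b n) = g (b n)) : f = g := by
  ext x
  refine semilinear_induction hb (fun x => f x = g x) (by simp) h ?_ ?_ x
  · intro r n hn
    rw [map_smul, map_smul, hn]
  · intro n₁ n₂ h₁ h₂
    rw [map_add, map_add, h₁, h₂]

/-- The `ρ`-semilinear map `Hom_R(N, M) → Hom_R'(N', M')` induced by a semilinear base change
`b : N → N'` and a semilinear map `c : M → M'`. -/
def homMapSL {b : N →ₛₗ[ρ] N'} (hb : IsSemilinearBaseChange ρ b) (c : M →ₛₗ[ρ] M') :
    (N →ₗ[R] M) →ₛₗ[ρ] (N' →ₗ[R'] M') :=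
  letI : Algebra R R' := ρ.toAlgebra
  letI : Module R N' := Module.compHom N' ρ
  letI : Module R M' := Module.compHom M' ρ
  haveI : IsScalarTower R R' N' := ⟨fun r r' n => by
    change (ρ r * r') • n = ρ r • (r' • n); rw [mul_smul]⟩
  haveI : IsScalarTower R R' M' := ⟨fun r r' n => by
    change (ρ r * r') • n = ρ r • (r' • n); rw [mul_smul]⟩
  have hb' : IsBaseChange R' (show N →ₗ[R] N' from
    { toFun := fun n => b n
      map_add' := fun m n => b.map_add m n
      map_smul' := fun r n => LinearMap.map_smulₛₗ b r n }) := hb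
  let c' : M →ₗ[R] M' :=
    { toFun := fun n => c n
      map_add' := fun m n => c.map_add m n
      map_smul' := fun r n => LinearMap.map_smulₛₗ c r n }
  { toFun := fun f => IsBaseChange.linearMapLeftRightHom hb' c' f
    map_add' := fun f g => map_add _ f g
    map_smul' := fun r f => by
      rw [map_smul]
      ext x
      rfl }

theorem homMapSL_apply {b : N →ₛₗ[ρ] N'} (hb : IsSemilinearBaseChange ρ b) (c : M →ₛₗ[ρ] M')
    (f : N →ₗ[R] M) (n : N) : homMapSL hb c f (b n) = c (f n) := by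
  letI : Algebra R R' := ρ.toAlgebra
  letI : Module R N' := Module.compHom N' ρ
  letI : Module R M' := Module.compHom M' ρ
  haveI : IsScalarTower R R' N' := ⟨fun r r' n => by
    change (ρ r * r') • n = ρ r • (r' • n); rw [mul_smul]⟩
  haveI : IsScalarTower R R' M' := ⟨fun r r' n => by
    change (ρ r * r') • n = ρ r • (r' • n); rw [mul_smul]⟩
  have hb' : IsBaseChange R' (show N →ₗ[R] N' from
    { toFun := fun n => b n
      map_add' := fun m n => b.map_add m n
      map_smul' := fun r n => LinearMap.map_smulₛₗ b r n }) := hb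
  let c' : M →ₗ[R] M' :=
    { toFun := fun n => c n
      map_add' := fun m n => c.map_add m n
      map_smul' := fun r n => LinearMap.map_smulₛₗ c r n }
  exact IsBaseChange.linearMapLeftRightHom_comp_apply hb' c' f n

/-- **Base change of `Hom`, semilinear form.** -/
theorem isSemilinearBaseChange_homMapSL [Module.Finite R N] [Module.Projective R N]
    {b : N →ₛₗ[ρ] N'} (hb : IsSemilinearBaseChange ρ b) {c : M →ₛₗ[ρ] M'}
    (hc : IsSemilinearBaseChange ρ c) : IsSemilinearBaseChange ρ (homMapSL hb c) := by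
  letI : Algebra R R' := ρ.toAlgebra
  letI : Module R N' := Module.compHom N' ρ
  letI : Module R M' := Module.compHom M' ρ
  haveI : IsScalarTower R R' N' := ⟨fun r r' n => by
    change (ρ r * r') • n = ρ r • (r' • n); rw [mul_smul]⟩
  haveI : IsScalarTower R R' M' := ⟨fun r r' n => by
    change (ρ r * r') • n = ρ r • (r' • n); rw [mul_smul]⟩
  have hb' : IsBaseChange R' (show N →ₗ[R] N' from
    { toFun := fun n => b n
      map_add' := fun m n => b.map_add m n
      map_smul' := fun r n => LinearMap.map_smulₛₗ b r n }) := hb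
  have hc' : IsBaseChange R' (show M →ₗ[R] M' from
    { toFun := fun n => c n
      map_add' := fun m n => c.map_add m n
      map_smul' := fun r n => LinearMap.map_smulₛₗ c r n }) := hc
  exact H371.isSemilinearBaseChange_of_isBaseChange ρ (fun _ => rfl) (homMapSL hb c)
    (IsBaseChange.linearMapLeftRightHom hb' _) (fun _ => rfl)
    (H747.isBaseChange_linearMapLeftRightHom hb' hc')

end SemilinearHom

section G3

variable {A R₀ R₁ R₀₁ : Type u} [CommRing A] [CommRing R₀] [CommRing R₁]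
    [CommRing R₀₁] [Algebra A R₀] [Algebra A R₁] [Algebra A R₀₁] [Algebra R₀ R₀₁]
    [Algebra R₁ R₀₁] [IsScalarTower A R₀ R₀₁] [IsScalarTower A R₁ R₀₁]
    {A' R₀' R₁' R₀₁' : Type u} [CommRing A'] [CommRing R₀'] [CommRing R₁']
    [CommRing R₀₁'] [Algebra A' R₀'] [Algebra A' R₁'] [Algebra A' R₀₁'] [Algebra R₀' R₀₁']
    [Algebra R₁' R₀₁'] [IsScalarTower A' R₀' R₀₁'] [IsScalarTower A' R₁' R₀₁']

/-- Compatibility of `homMapSL` with restriction maps that are base changes: the square
of `Hom`-modules commutes. -/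
theorem homMapSL_restrict {S S₁ S' S₁' : Type u} [CommRing S] [CommRing S₁] [CommRing S']
    [CommRing S₁'] [Algebra S S₁] [Algebra S' S₁'] {σ : S →+* S'} {σ₁ : S₁ →+* S₁'}
    {N N₁ M M₁ N' N₁' M' M₁' : Type u}
    [AddCommGroup N] [Module S N] [AddCommGroup N₁] [Module S₁ N₁] [Module S N₁]
    [IsScalarTower S S₁ N₁]
    [AddCommGroup M] [Module S M] [AddCommGroup M₁] [Module S₁ M₁] [Module S M₁]
    [IsScalarTower S S₁ M₁]
    [AddCommGroup N'] [Module S' N'] [AddCommGroup N₁'] [Module S₁' N₁'] [Module S' N₁']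
    [IsScalarTower S' S₁' N₁']
    [AddCommGroup M'] [Module S' M'] [AddCommGroup M₁'] [Module S₁' M₁'] [Module S' M₁']
    [IsScalarTower S' S₁' M₁']
    {rN : N →ₗ[S] N₁} (hrN : IsBaseChange S₁ rN) (rM : M →ₗ[S] M₁)
    {rN' : N' →ₗ[S'] N₁'} (hrN' : IsBaseChange S₁' rN') (rM' : M' →ₗ[S'] M₁')
    {bN : N →ₛₗ[σ] N'} (hbN : IsSemilinearBaseChange σ bN) (bM : M →ₛₗ[σ] M')
    {bN₁ : N₁ →ₛₗ[σ₁] N₁'} (hbN₁ : IsSemilinearBaseChange σ₁ bN₁) (bM₁ : M₁ →ₛₗ[σ₁] M₁')
    (cN : ∀ s, bN₁ (rN s) = rN' (bN s)) (cM : ∀ s, bM₁ (rM s) = rM' (bM s))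
    (f : N →ₗ[S] M) :
    homMapSL hbN₁ bM₁ (IsBaseChange.linearMapLeftRightHom hrN rM f) =
      IsBaseChange.linearMapLeftRightHom hrN' rM' (homMapSL hbN bM f) := by
  refine semilinear_ext hbN₁ _ _ fun m => ?_
  rw [homMapSL_apply]
  refine hrN.inductionOn m _ ?_ ?_ ?_ ?_
  · simp
  · intro n
    rw [IsBaseChange.linearMapLeftRightHom_comp_apply, cM, cN,
      IsBaseChange.linearMapLeftRightHom_comp_apply, homMapSL_apply]
  · intro s n hn
    rw [map_smul, map_smulₛₗ, map_smulₛₗ, map_smul, hn]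
  · intro n₁ n₂ h₁ h₂
    rw [map_add, map_add, map_add, map_add, h₁, h₂]

/-- **G3.** `ℋom` commutes with base change along a morphism of cospans.
(Exact statement of `H747.Skel.homDatum_isBC`.) -/
theorem homDatum_isBC (ρ₀ : R₀ →+* R₀') (ρ₁ : R₁ →+* R₁') (ρ₀₁ : R₀₁ →+* R₀₁')
    (h₀ : ρ₀₁.comp (algebraMap R₀ R₀₁) = (algebraMap R₀' R₀₁').comp ρ₀)
    (h₁ : ρ₀₁.comp (algebraMap R₁ R₀₁) = (algebraMap R₁' R₀₁').comp ρ₁)
    {G G' : GlueDatum A R₀ R₁ R₀₁} {G₁ G₁' : GlueDatum A' R₀' R₁' R₀₁'}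
    (hG : GlueDatum.IsBC ρ₀ ρ₁ ρ₀₁ G G₁) (hG' : GlueDatum.IsBC ρ₀ ρ₁ ρ₀₁ G' G₁') :
    GlueDatum.IsBC ρ₀ ρ₁ ρ₀₁ (H747.homDatum G G') (H747.homDatum G₁ G₁') := by
  obtain ⟨B⟩ := hG
  obtain ⟨B'⟩ := hG'
  haveI := G.invertible₀
  haveI := G.invertible₁
  haveI : Module.Invertible R₀₁ G.N₀₁ := Module.Invertible.congr G.isBaseChange₀.equiv
  exact ⟨{
    b₀ := homMapSL B.isBaseChange₀ B'.b₀
    b₁ := homMapSL B.isBaseChange₁ B'.b₁
    b₀₁ := homMapSL B.isBaseChange₀₁ B'.b₀₁
    comm₀ := fun f => homMapSL_restrict G.isBaseChange₀ G'.r₀ G₁.isBaseChange₀ G₁'.r₀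
      B.isBaseChange₀ B'.b₀ B.isBaseChange₀₁ B'.b₀₁ B.comm₀ B'.comm₀ f
    comm₁ := fun f => homMapSL_restrict G.isBaseChange₁ G'.r₁ G₁.isBaseChange₁ G₁'.r₁
      B.isBaseChange₁ B'.b₁ B.isBaseChange₀₁ B'.b₀₁ B.comm₁ B'.comm₁ f
    isBaseChange₀ := isSemilinearBaseChange_homMapSL B.isBaseChange₀ B'.isBaseChange₀
    isBaseChange₁ := isSemilinearBaseChange_homMapSL B.isBaseChange₁ B'.isBaseChange₁
    isBaseChange₀₁ := isSemilinearBaseChange_homMapSL B.isBaseChange₀₁ B'.isBaseChange₀₁ }⟩

end G3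

end

end Fermat.Agent.S25.H927
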