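import Mathlib
import Fermat.Agent.S25.H445.LocalInvertible

/-!
# S25 / CHART assembly (helper927), algebra part

A ring map `k → B` which is locally (on `Spec B`) standard smooth of relative dimension one is
smooth, and `Ω[B⁄k]` is an invertible `B`-module.
-/

set_option autoImplicit false

universe u

open TensorProduct KaehlerDifferential

namespace Fermat.Agent.S25.H927

/-- A standard smooth algebra is smooth (ring hom form). -/
theorem ringHom_smooth_of_isStandardSmooth {R S : Type u} [CommRing R] [CommRing S]
    {f : R →+* S} (hf : f.IsStandardSmooth) : f.Smooth := by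
  algebraize [f]
  have h : Algebra.Smooth R S := inferInstance
  exact h

/-- Locally standard smooth implies smooth. -/
theorem smooth_of_locally {k B : Type u} [CommRing k] [CommRing B] [Algebra k B]
    (h : RingHom.Locally (RingHom.IsStandardSmoothOfRelativeDimension 1) (algebraMap k B)) :
    Algebra.Smooth k B := by
  obtain ⟨s, hs, hP⟩ := h
  rw [← RingHom.smooth_algebraMap]
  refine RingHom.Smooth.ofLocalizationSpanTarget (algebraMap k B) s hs fun r => ?_
  exact ringHom_smooth_of_isStandardSmooth
    (RingHom.IsStandardSmoothOfRelativeDimension.isStandardSmooth 1 _ (hP r.1 r.2))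

/-- A free module of rank one is invertible. -/
theorem invertible_of_free_of_rank_eq_one {R M : Type*} [CommRing R] [Nontrivial R]
    [AddCommGroup M] [Module R M] [Module.Free R M] (h : Module.rank R M = 1) :
    Module.Invertible R M := by
  obtain ⟨e⟩ := Module.nonempty_linearEquiv_iff_rank_eq_one.mpr h
  exact Module.Invertible.congr e

/-- Over the zero ring every module is invertible. -/
theorem invertible_of_subsingleton {R M : Type*} [CommRing R] [Subsingleton R]
    [AddCommGroup M] [Module R M] : Module.Invertible R M := by
  have : Subsingleton M := Module.subsingleton R M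
  have e : R ≃ₗ[R] M :=
    { toFun := fun _ => 0
      invFun := fun _ => 0
      map_add' := fun _ _ => by simp
      map_smul' := fun _ _ => by simp
      left_inv := fun _ => Subsingleton.elim _ _
      right_inv := fun _ => Subsingleton.elim _ _ }
  exact Module.Invertible.congr e

/-- For a standard smooth algebra of relative dimension one, `Ω` is invertible. -/
theorem omega_invertible_of_isStandardSmooth {R S : Type u} [CommRing R] [CommRing S]
    [Algebra R S] [Algebra.IsStandardSmoothOfRelativeDimension 1 R S] :
    Module.Invertible S Ω[S⁄R] := by
  rcases subsingleton_or_nontrivial S with hS | hS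
  · exact invertible_of_subsingleton
  · have : Algebra.IsStandardSmooth R S :=
      Algebra.IsStandardSmoothOfRelativeDimension.isStandardSmooth 1
    have h := Algebra.IsStandardSmoothOfRelativeDimension.rank_kaehlerDifferential
      (R := R) (S := S) 1
    exact invertible_of_free_of_rank_eq_one (by simpa using h)

end Fermat.Agent.S25.H927

namespace Fermat.Agent.S25.H927

/-- Locally standard smooth of relative dimension one implies that `Ω` is invertible. -/
theorem omega_invertible_of_locally {k B : Type u} [CommRing k] [CommRing B] [Algebra k B]
    (h : RingHom.Locally (RingHom.IsStandardSmoothOfRelativeDimension 1) (algebraMap k B)) :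
    Module.Invertible B Ω[B⁄k] := by
  obtain ⟨s, hs, hP⟩ := h
  refine H445.invertible_of_localizationSpan s hs fun r => ?_
  have h1 : (algebraMap k (Localization.Away r.1)).IsStandardSmoothOfRelativeDimension 1 := by
    rw [IsScalarTower.algebraMap_eq k B (Localization.Away r.1)]
    exact hP r.1 r.2
  have h2 : Algebra.IsStandardSmoothOfRelativeDimension 1 k (Localization.Away r.1) :=
    (RingHom.isStandardSmoothOfRelativeDimension_algebraMap 1).mp h1
  have inv : Module.Invertible (Localization.Away r.1) Ω[Localization.Away r.1⁄k] :=
    omega_invertible_of_isStandardSmooth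
  have hloc : IsLocalizedModule (Submonoid.powers r.1)
      (KaehlerDifferential.map k k B (Localization.Away r.1)) := inferInstance
  let e : LocalizedModule.Away r.1 Ω[B⁄k] ≃ₗ[B] Ω[Localization.Away r.1⁄k] :=
    IsLocalizedModule.iso (Submonoid.powers r.1)
      (KaehlerDifferential.map k k B (Localization.Away r.1))
  let e' : LocalizedModule.Away r.1 Ω[B⁄k] ≃ₗ[Localization.Away r.1]
      Ω[Localization.Away r.1⁄k] :=
    LinearEquiv.extendScalarsOfIsLocalization (Submonoid.powers r.1) (Localization.Away r.1) e
  exact Module.Invertible.congr e'.symm

end Fermat.Agent.S25.H927
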