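import Fermat.Agent.S25.DefsDict

/-!
# S25 / CHART assembly (helper927): evaluation at the marked point
-/

set_option autoImplicit false
universe u
open CategoryTheory CategoryTheory.Limits AlgebraicGeometry AlgebraicGeometry.RelPicard
  NeronModelInfra GoodReductionJacobian TopologicalSpace

namespace Fermat.Agent.S25.H927

noncomputable section

variable {k : Type u} [Field k] {C : Scheme.{u}} (c : C ⟶ Spec (CommRingCat.of k))
  (ε : SchemeHomOver (𝟙 (Spec (CommRingCat.of k))) c)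

/-- The marked point of `C`. -/
def markedPt : C := ε.1 (default : PrimeSpectrum k)

theorem preimage_eq_top_iff (U : C.Opens) : ε.1 ⁻¹ᵁ U = ⊤ ↔ markedPt c ε ∈ U := by
  constructor
  · intro h
    have : (default : PrimeSpectrum k) ∈ ε.1 ⁻¹ᵁ U := by rw [h]; trivial
    exact this
  · intro h
    rw [eq_top_iff]
    intro p _
    have hp : p = (default : PrimeSpectrum k) := Subsingleton.elim _ _
    rw [hp]
    exact h

theorem evalAt_resRing {U V : C.Opens} (h : V ≤ U) (hU : ε.1 ⁻¹ᵁ U = ⊤)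
    (hV : ε.1 ⁻¹ᵁ V = ⊤) (f : Γ(C, U)) :
    evalAt c ε V hV (resRing h f) = evalAt c ε U hU f := by
  simp only [evalAt, resRing]
  rw [← CommRingCat.comp_apply, Scheme.Hom.map_appLE_assoc]

theorem evalAt_sectionsStr (U : C.Opens) (hU : ε.1 ⁻¹ᵁ U = ⊤) (a : k) :
    evalAt c ε U hU (sectionsStr c U a) = a := by
  simp only [evalAt, sectionsStr]
  rw [← CommRingCat.comp_apply]
  have key : (C.presheaf.map (homOfLE (le_top : U ≤ ⊤)).op) ≫
      ε.1.appLE U ⊤ (le_of_eq hU.symm) = ε.1.appTop := by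
    rw [Scheme.Hom.map_appLE]
    simp only [Scheme.Hom.appLE, Scheme.Hom.appTop]
    exact ((Spec (CommRingCat.of k)).presheaf.map_id _ ▸ Category.comp_id (ε.1.app ⊤) :)
  have h2 : ((Scheme.ΓSpecIso (CommRingCat.of k)).inv ≫ c.appTop ≫
      C.presheaf.map (homOfLE (le_top : U ≤ ⊤)).op) ≫
      ε.1.appLE U ⊤ (le_of_eq hU.symm) ≫ (Scheme.ΓSpecIso (CommRingCat.of k)).hom = 𝟙 _ := by
    simp only [Category.assoc]
    rw [reassoc_of% key, ← Scheme.Hom.comp_appTop_assoc, ε.2]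
    simp
  rw [h2]
  rfl

theorem preimage_basicOpen_eq_top_of_evalAt_ne_zero (U : C.Opens) (hU : ε.1 ⁻¹ᵁ U = ⊤)
    (f : Γ(C, U)) (hf : evalAt c ε U hU f ≠ 0) : ε.1 ⁻¹ᵁ (C.basicOpen f) = ⊤ := by
  have hunit : IsUnit (evalAt c ε U hU f) := isUnit_iff_ne_zero.mpr hf
  have h1 : IsUnit ((Scheme.ΓSpecIso (CommRingCat.of k)).inv.hom (evalAt c ε U hU f)) :=
    hunit.map _
  have h2 : (Scheme.ΓSpecIso (CommRingCat.of k)).inv.hom (evalAt c ε U hU f) =
      (ε.1.appLE U ⊤ (le_of_eq hU.symm)).hom f := by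
    simp only [evalAt]
    rw [← CommRingCat.comp_apply]
    simp
  rw [h2] at h1
  have h3 := Scheme.basicOpen_appLE ε.1 ⊤ U (le_of_eq hU.symm) f
  rw [Scheme.basicOpen_of_isUnit _ h1, top_inf_eq] at h3
  exact h3.symm

theorem mem_basicOpen_of_evalAt_ne_zero (U : C.Opens) (hU : ε.1 ⁻¹ᵁ U = ⊤)
    (f : Γ(C, U)) (hf : evalAt c ε U hU f ≠ 0) : markedPt c ε ∈ C.basicOpen f :=
  (preimage_eq_top_iff c ε _).mp (preimage_basicOpen_eq_top_of_evalAt_ne_zero c ε U hU f hf)

/-- If the marked point is not in `D(f)` then `f` vanishes at the marked point. -/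
theorem evalAt_eq_zero_of_notMem_basicOpen (U : C.Opens) (hU : ε.1 ⁻¹ᵁ U = ⊤)
    (f : Γ(C, U)) (hf : markedPt c ε ∉ C.basicOpen f) : evalAt c ε U hU f = 0 := by
  by_contra h
  exact hf (mem_basicOpen_of_evalAt_ne_zero c ε U hU f h)

end

end Fermat.Agent.S25.H927
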