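import Fermat.Agent.S25.DefsDict
import Fermat.Agent.S25.H927.ChartAlg
import Fermat.Agent.S25.H927.ChartEval

/-!
# S25 / CHART assembly (helper927): a `ChartOf` from two-chart data

`nonempty_chartOf`: affine opens `U₀`, `U₁` covering `C` with functions `x`, `y` such that
`U₀ ⊓ U₁ = D(x) = D(y)`, `x y = 1`, `Γ(C, Uᵢ)` finite over `k[x]`, `k[y]`, locally standard
smooth of relative dimension one, and `y` vanishing at the marked point, give a `ChartOf c ε`.
-/

set_option autoImplicit false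
set_option linter.style.haveILetI false
universe u
open CategoryTheory CategoryTheory.Limits AlgebraicGeometry AlgebraicGeometry.RelPicard
  NeronModelInfra GoodReductionJacobian TopologicalSpace

namespace Fermat.Agent.S25.H927

noncomputable section

variable {k : Type u} [Field k] {C : Scheme.{u}} (c : C ⟶ Spec (CommRingCat.of k))
  (ε : SchemeHomOver (𝟙 (Spec (CommRingCat.of k))) c)

/-- `sectionsStr` is compatible with restriction. -/
theorem resRing_sectionsStr {U V : C.Opens} (h : V ≤ U) (a : k) :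
    resRing h (sectionsStr c U a) = sectionsStr c V a := by
  simp only [resRing, sectionsStr]
  rw [← CommRingCat.comp_apply]
  simp only [Category.assoc, ← Functor.map_comp]
  rfl

/-- Sections over `V = D(f)` are the localization of the sections over the affine open `U`. -/
theorem isLocalization_away_of_eq_basicOpen {U : C.Opens} (hU : IsAffineOpen U) (f : Γ(C, U))
    (V : C.Opens) (hV : V = C.basicOpen f) (hVU : V ≤ U) :
    @IsLocalization.Away Γ(C, U) _ f Γ(C, V) _ (resRing hVU).toAlgebra := by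
  subst hV
  exact hU.isLocalization_basicOpen f

/-- Evaluation at the marked point as a `k`-algebra homomorphism. -/
def evalAlgHom (U : C.Opens) (hU : ε.1 ⁻¹ᵁ U = ⊤) :
    letI : Algebra k Γ(C, U) := (sectionsStr c U).toAlgebra
    Γ(C, U) →ₐ[k] k :=
  letI : Algebra k Γ(C, U) := (sectionsStr c U).toAlgebra
  { evalAt c ε U hU with
    commutes' := fun a => evalAt_sectionsStr c ε U hU a }

/-- **CHART assembly, construction.** Two-chart data with `y` vanishing at the marked point give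
a `ChartOf c ε`. -/
theorem nonempty_chartOf [IsIntegral C] (U₀ U₁ : C.Opens) (x : Γ(C, U₀)) (y : Γ(C, U₁))
    (hA₀ : IsAffineOpen U₀) (hA₁ : IsAffineOpen U₁) (hne₀ : Nonempty U₀)
    (hcov : U₀ ⊔ U₁ = ⊤)
    (hx : U₀ ⊓ U₁ = C.basicOpen x) (hy : U₀ ⊓ U₁ = C.basicOpen y)
    (hmul : resRing (inf_le_left : U₀ ⊓ U₁ ≤ U₀) x * resRing (inf_le_right : U₀ ⊓ U₁ ≤ U₁) y = 1)
    (hfinx : letI : Algebra k Γ(C, U₀) := (sectionsStr c U₀).toAlgebra
      (Polynomial.aeval (R := k) x).toRingHom.Finite)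
    (hfiny : letI : Algebra k Γ(C, U₁) := (sectionsStr c U₁).toAlgebra
      (Polynomial.aeval (R := k) y).toRingHom.Finite)
    (hsm₀ : RingHom.Locally (RingHom.IsStandardSmoothOfRelativeDimension 1) (sectionsStr c U₀))
    (hsm₁ : RingHom.Locally (RingHom.IsStandardSmoothOfRelativeDimension 1) (sectionsStr c U₁))
    (heps : ε.1 ⁻¹ᵁ U₁ = ⊤) (hy0 : evalAt c ε U₁ heps y = 0) :
    Nonempty (ChartOf c ε) := by
  have hne₁ : Nonempty U₁ := ⟨⟨markedPt c ε, (preimage_eq_top_iff c ε U₁).mp heps⟩⟩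
  letI a₀ : Algebra k Γ(C, U₀) := (sectionsStr c U₀).toAlgebra
  letI a₁ : Algebra k Γ(C, U₁) := (sectionsStr c U₁).toAlgebra
  letI a₀₁ : Algebra k Γ(C, U₀ ⊓ U₁) := (sectionsStr c (U₀ ⊓ U₁)).toAlgebra
  letI aL : Algebra Γ(C, U₀) Γ(C, U₀ ⊓ U₁) := (resRing (inf_le_left : U₀ ⊓ U₁ ≤ U₀)).toAlgebra
  letI aR : Algebra Γ(C, U₁) Γ(C, U₀ ⊓ U₁) := (resRing (inf_le_right : U₀ ⊓ U₁ ≤ U₁)).toAlgebra
  haveI tL : IsScalarTower k Γ(C, U₀) Γ(C, U₀ ⊓ U₁) :=
    IsScalarTower.of_algebraMap_eq fun a => (resRing_sectionsStr c inf_le_left a).symm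
  haveI tR : IsScalarTower k Γ(C, U₁) Γ(C, U₀ ⊓ U₁) :=
    IsScalarTower.of_algebraMap_eq fun a => (resRing_sectionsStr c inf_le_right a).symm
  have hchart : IsCurveChart k Γ(C, U₀) Γ(C, U₁) Γ(C, U₀ ⊓ U₁) x y (evalAlgHom c ε U₁ heps) :=
    { isDomain₀ := inferInstance
      isDomain₁ := inferInstance
      away₀ := isLocalization_away_of_eq_basicOpen hA₀ x _ hx inf_le_left
      away₁ := isLocalization_away_of_eq_basicOpen hA₁ y _ hy inf_le_right
      mul_eq_one := hmul
      finite₀ := hfinx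
      finite₁ := hfiny
      smooth₀ := smooth_of_locally hsm₀
      smooth₁ := smooth_of_locally hsm₁
      omega₀ := omega_invertible_of_locally hsm₀
      omega₁ := omega_invertible_of_locally hsm₁
      e_y := hy0 }
  exact ⟨{
    B₀ := Γ(C, U₀)
    B₁ := Γ(C, U₁)
    B₀₁ := Γ(C, U₀ ⊓ U₁)
    x := x
    y := y
    e := evalAlgHom c ε U₁ heps
    isCurveChart := hchart
    U₀ := U₀
    U₁ := U₁
    isAffine₀ := hA₀
    isAffine₁ := hA₁
    cover := hcov
    i₀ := RingEquiv.refl _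
    i₁ := RingEquiv.refl _
    i₀₁ := RingEquiv.refl _
    i₀_str := fun _ => rfl
    i₁_str := fun _ => rfl
    i₀₁_res₀ := fun _ => rfl
    i₀₁_res₁ := fun _ => rfl
    inf_eq₀ := hx
    inf_eq₁ := hy
    eps_mem := heps
    e_eq := fun _ => rfl }⟩

end

end Fermat.Agent.S25.H927
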