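import Mathlib

/-!
# S25 / CURVE leaf A4d (helper927): Noether normalization in dimension one

Statement = frozen skeleton `Fermat/Agent/S25/Curve/Alg/Points.lean` (origin/helper27), A4d.
-/

set_option autoImplicit false

namespace Fermat.Agent.S25.H927

open Polynomial in
/-- `k[X] → k[X₀]` is bijective. -/
theorem bijective_aeval_X_fin_one (k : Type*) [Field k] :
    Function.Bijective (Polynomial.aeval (R := k) (MvPolynomial.X (0 : Fin 1) :
      MvPolynomial (Fin 1) k)) := by
  let h : k[X] →ₐ[k] MvPolynomial (Fin 1) k := Polynomial.aeval (MvPolynomial.X (0 : Fin 1))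
  let h' : MvPolynomial (Fin 1) k →ₐ[k] k[X] := MvPolynomial.aeval fun _ => Polynomial.X
  have h1 : h'.comp h = AlgHom.id k k[X] := by
    apply Polynomial.algHom_ext
    simp [h, h']
  have h2 : h.comp h' = AlgHom.id k (MvPolynomial (Fin 1) k) := by
    apply MvPolynomial.algHom_ext
    intro i
    have hi : i = 0 := Subsingleton.elim _ _
    simp [h, h', hi]
  refine ⟨fun a b hab => ?_, fun y => ⟨h' y, ?_⟩⟩
  · have := congrArg h' hab
    have e1 : ∀ z, h' (h z) = z := fun z => congrArg (fun f : k[X] →ₐ[k] k[X] => f z) h1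
    change h' (h a) = h' (h b) at this
    rwa [e1, e1] at this
  · exact congrArg (fun f : MvPolynomial (Fin 1) k →ₐ[k] MvPolynomial (Fin 1) k => f y) h2

open Polynomial in
/-- In `k[X₀, …, X_{n+1}]` there is a nonzero prime ideal which is not maximal. -/
theorem exists_prime_not_maximal (k : Type*) [Field k] (n : ℕ) :
    ∃ P : Ideal (MvPolynomial (Fin (n + 2)) k), P.IsPrime ∧ P ≠ ⊥ ∧ ¬ P.IsMaximal := by
  classical
  let ev : MvPolynomial (Fin (n + 2)) k →ₐ[k] k[X] :=
    MvPolynomial.aeval fun i => if i = 0 then 0 else Polynomial.X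
  have hsurj : Function.Surjective ev := by
    intro p
    refine ⟨Polynomial.aeval (MvPolynomial.X (1 : Fin (n + 2))) p, ?_⟩
    have h1 : ev.comp (Polynomial.aeval (MvPolynomial.X (1 : Fin (n + 2)))) =
        AlgHom.id k k[X] := by
      apply Polynomial.algHom_ext
      simp [ev]
    exact congrArg (fun f : k[X] →ₐ[k] k[X] => f p) h1
  refine ⟨RingHom.ker ev.toRingHom, RingHom.ker_isPrime _, ?_, ?_⟩
  · intro hbot
    have hX : (MvPolynomial.X (0 : Fin (n + 2)) : MvPolynomial (Fin (n + 2)) k) ∈
        RingHom.ker ev.toRingHom := by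
      rw [RingHom.mem_ker]
      simp [ev]
    rw [hbot, Ideal.mem_bot] at hX
    exact MvPolynomial.X_ne_zero _ hX
  · intro hmax
    have hfield : IsField (MvPolynomial (Fin (n + 2)) k ⧸ RingHom.ker ev.toRingHom) :=
      (Ideal.Quotient.maximal_ideal_iff_isField_quotient _).mp hmax
    have e := RingHom.quotientKerEquivOfSurjective (f := ev.toRingHom) hsurj
    exact Polynomial.not_isField k (MulEquiv.isField hfield e.symm.toMulEquiv)

/-- **A4d.** Noether normalization in dimension one: a Dedekind domain, not a field, finitely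
generated over a field `k` is finite over `k[x]` for some `x` transcendental over `k`. -/
theorem exists_finite_aeval {k B : Type*} [Field k] [CommRing B] [IsDedekindDomain B]
    [Algebra k B] [Algebra.FiniteType k B] (hB : ¬ IsField B) :
    ∃ x : B, Function.Injective (Polynomial.aeval (R := k) x) ∧
      (Polynomial.aeval (R := k) x).toRingHom.Finite := by
  obtain ⟨s, g, hinj, hfin⟩ := exists_finite_inj_algHom_of_fg k B
  rcases s with _ | _ | n
  · -- `s = 0`: then `B` is a field
    exfalso
    apply hB
    let _ : Algebra (MvPolynomial (Fin 0) k) B := g.toRingHom.toAlgebra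
    have hfin' : Module.Finite (MvPolynomial (Fin 0) k) B := hfin
    have : Algebra.IsIntegral (MvPolynomial (Fin 0) k) B := Algebra.IsIntegral.of_finite _ _
    have hF : IsField (MvPolynomial (Fin 0) k) :=
      MulEquiv.isField (Field.toIsField k) (MvPolynomial.isEmptyAlgEquiv k (Fin 0)).toMulEquiv
    exact isField_of_isIntegral_of_isField' hF
  · -- `s = 1`
    refine ⟨g (MvPolynomial.X 0), ?_, ?_⟩
    · have e : (Polynomial.aeval (R := k) (g (MvPolynomial.X 0)) : Polynomial k → B) =
          g ∘ Polynomial.aeval (R := k) (MvPolynomial.X (0 : Fin 1)) := by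
        funext p
        exact Polynomial.aeval_algHom_apply g (MvPolynomial.X 0) p
      rw [e]
      exact hinj.comp (bijective_aeval_X_fin_one k).1
    · have e : (Polynomial.aeval (R := k) (g (MvPolynomial.X 0))).toRingHom =
          g.toRingHom.comp (Polynomial.aeval (R := k) (MvPolynomial.X (0 : Fin 1))).toRingHom := by
        ext p
        · simp
        · simp
      rw [e]
      exact RingHom.Finite.comp hfin
        (RingHom.Finite.of_surjective _ (bijective_aeval_X_fin_one k).2)
  · -- `s ≥ 2`: impossible
    exfalso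
    obtain ⟨P, hP, hP0, hPmax⟩ := exists_prime_not_maximal k n
    let _ : Algebra (MvPolynomial (Fin (n + 2)) k) B := g.toRingHom.toAlgebra
    have hfin' : Module.Finite (MvPolynomial (Fin (n + 2)) k) B := hfin
    have : Algebra.IsIntegral (MvPolynomial (Fin (n + 2)) k) B := Algebra.IsIntegral.of_finite _ _
    have hker : (⊥ : Ideal B).comap (algebraMap (MvPolynomial (Fin (n + 2)) k) B) = ⊥ := by
      rw [eq_bot_iff]
      intro a ha
      rw [Ideal.mem_comap, Ideal.mem_bot] at ha
      rw [Ideal.mem_bot]
      exact hinj (by rw [map_zero]; exact ha)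
    obtain ⟨Q, -, hQ, hQP⟩ := Ideal.exists_ideal_over_prime_of_isIntegral P (⊥ : Ideal B)
      (by rw [hker]; exact bot_le)
    have hQ0 : Q ≠ ⊥ := by
      rintro rfl
      exact hP0 (hQP.symm.trans hker)
    have hQmax : Q.IsMaximal := hQ.isMaximal hQ0
    apply hPmax
    rw [← hQP]
    exact Ideal.isMaximal_comap_of_isIntegral_of_isMaximal Q

end Fermat.Agent.S25.H927
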