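import Mathlib

/-!
# S25 / CURVE leaf A4 (helper927): points of one-dimensional finitely generated algebras

Statements are those of the frozen skeleton `Fermat/Agent/S25/Curve/Alg/Points.lean`
(origin/helper27), proved in namespace `Fermat.Agent.S25.H927`.
-/

set_option autoImplicit false

open TensorProduct

namespace Fermat.Agent.S25.H927

/-- **A4a.** A finitely generated algebra over a field which is a domain but not a field has
infinitely many maximal ideals. -/
theorem infinite_maximalSpectrum {k B : Type*} [Field k] [CommRing B] [IsDomain B]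
    [Algebra k B] [Algebra.FiniteType k B] (hB : ¬ IsField B) :
    Infinite (MaximalSpectrum B) := by
  classical
  by_contra hfin
  rw [not_infinite_iff_finite] at hfin
  have : Fintype (MaximalSpectrum B) := Fintype.ofFinite _
  have hJ : IsJacobsonRing B := isJacobsonRing_of_finiteType (A := k)
  -- a nonzero element in every maximal ideal
  have hex : ∀ m : MaximalSpectrum B, ∃ a : B, a ∈ m.asIdeal ∧ a ≠ 0 := by
    intro m
    have hne : m.asIdeal ≠ ⊥ := Ring.ne_bot_of_isMaximal_of_not_isField m.isMaximal hB
    obtain ⟨a, ha, ha0⟩ := Submodule.exists_mem_ne_zero_of_ne_bot hne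
    exact ⟨a, ha, ha0⟩
  choose a ha ha0 using hex
  have hprod : (∏ m, a m) ≠ 0 := Finset.prod_ne_zero_iff.mpr fun m _ => ha0 m
  apply hprod
  have hjac : (⊥ : Ideal B).jacobson = ⊥ :=
    hJ.out' ⊥ Ideal.isRadical_bot
  have hmem : (∏ m, a m) ∈ (⊥ : Ideal B).jacobson := by
    rw [Ideal.jacobson, Ideal.mem_sInf]
    rintro J ⟨-, hJmax⟩
    have h1 : a ⟨J, hJmax⟩ ∣ ∏ m, a m := Finset.dvd_prod_of_mem a (Finset.mem_univ _)
    exact Ideal.mem_of_dvd J h1 (ha ⟨J, hJmax⟩)
  rw [hjac] at hmem
  exact hmem

/-- **A4b.** Nullstellensatz: residue fields at maximal ideals are `k`. -/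
theorem bijective_algebraMap_quotient_of_isMaximal {k B : Type*} [Field k] [IsAlgClosed k]
    [CommRing B] [Algebra k B] [Algebra.FiniteType k B] (m : Ideal B) [m.IsMaximal] :
    Function.Bijective (algebraMap k (B ⧸ m)) := by
  let _ : Field (B ⧸ m) := Ideal.Quotient.field m
  have hft : Algebra.FiniteType k (B ⧸ m) :=
    Algebra.FiniteType.of_surjective (Ideal.Quotient.mkₐ k m) (Ideal.Quotient.mkₐ_surjective k m)
  have hfin : Module.Finite k (B ⧸ m) := finite_of_finite_type_of_isJacobsonRing k (B ⧸ m)
  have : Algebra.IsIntegral k (B ⧸ m) := Algebra.IsIntegral.of_finite k (B ⧸ m)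
  exact IsAlgClosed.algebraMap_bijective_of_isIntegral

/-- **A4c.** A nonzero element of an invertible module over a Dedekind domain vanishes at
only finitely many maximal ideals. -/
theorem finite_setOf_mem_smul_top {R M : Type*} [CommRing R] [IsDedekindDomain R]
    [AddCommGroup M] [Module R M] [Module.Invertible R M] (s : M) (hs : s ≠ 0) :
    {m : MaximalSpectrum R | s ∈ m.asIdeal • (⊤ : Submodule R M)}.Finite := by
  classical
  obtain ⟨φ, hφ⟩ := Module.Projective.exists_dual_ne_zero R hs
  -- the ideal generated by `φ s`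
  have hI : Ideal.span {φ s} ≠ 0 := by
    rw [Ne, Ideal.zero_eq_bot, Ideal.span_singleton_eq_bot]
    exact hφ
  have hfin := Ideal.finite_factors hI
  -- vanishing at `m` implies `φ s ∈ m`
  have hmem : ∀ m : MaximalSpectrum R, s ∈ m.asIdeal • (⊤ : Submodule R M) →
      φ s ∈ m.asIdeal := by
    intro m hm
    refine Submodule.smul_induction_on hm ?_ ?_
    · intro r hr n _
      rw [map_smul, smul_eq_mul]
      exact Ideal.mul_mem_right _ _ hr
    · intro x y hx hy
      rw [map_add]
      exact Ideal.add_mem _ hx hy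
  -- map to the height one spectrum
  have hne : ∀ m : MaximalSpectrum R, s ∈ m.asIdeal • (⊤ : Submodule R M) →
      m.asIdeal ≠ ⊥ := by
    intro m hm hbot
    apply hφ
    have := hmem m hm
    rwa [hbot, Ideal.mem_bot] at this
  let S : Set (MaximalSpectrum R) := {m | s ∈ m.asIdeal • (⊤ : Submodule R M)}
  let f : S → {v : IsDedekindDomain.HeightOneSpectrum R | v.asIdeal ∣ Ideal.span {φ s}} :=
    fun m => ⟨⟨m.1.asIdeal, m.1.isMaximal.isPrime, hne m.1 m.2⟩, by
      change m.1.asIdeal ∣ Ideal.span {φ s}
      rw [Ideal.dvd_iff_le, Ideal.span_singleton_le_iff_mem]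
      exact hmem m.1 m.2⟩
  have hf : Function.Injective f := by
    intro m m' h
    have h1 : m.1.asIdeal = m'.1.asIdeal := by
      have := congrArg (fun v => v.1.asIdeal) h
      exact this
    exact Subtype.ext (MaximalSpectrum.ext h1)
  have : Finite {v : IsDedekindDomain.HeightOneSpectrum R | v.asIdeal ∣ Ideal.span {φ s}} :=
    hfin.to_subtype
  have hS : Finite S := Finite.of_injective f hf
  exact Set.toFinite S

end Fermat.Agent.S25.H927
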